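/-
GATE-Z (S15) / LOC-p / node GZ-LOCP-NODE36 (helper26): **the `36`-form of `FP.NodeHyp` at EVERY
level `M` with `q ∥ M`, `q` odd, `A ∣ q`, for EVERY `m`** (in particular `m = r ^ k` with
`r ∈ {2, 3}`, which `GB/A/Desc/NodeFinal.nodeHyp_all` excludes).

* `NodeHypC h A m c` : for an `I_A`-fixed `m`-divisible unit `u` of `F_M` which is a unit for
  both Gauss valuations, `m ∣ c · ord_Q (red_i u)` at every place `Q` of the residue function
  field, `i = 1, 2`.  `NodeHypC h A m 1` is `FP.NodeHyp h A m` (`nodeHypC_of_nodeHyp`).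
* `PlaceExtC.dvd_six_mul_ord_of_forall_dvd_above` : (P1) without any coprimality, for a finite
  separable extension of degree `≤ 3`: `m ∣ c · ord_w u` for all `w` ⟹ `m ∣ 6 c · ord_v u` for
  all `v` (`e(w | v) ∈ {1, 2, 3}` divides `6`).
* `nodeHyp36` : helper84's `A4/LevelFour.nodeHyp_of_four_dvd` at level `M·4` (any `m`) and the
  descent `M·4 → M·2 → M` of helper28/helper48/helper81, losing a factor `6` at each step.
-/
import Fermat.Agent.GB.A.Desc.NodeFinal

set_option autoImplicit false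

noncomputable section

namespace Fermat.Agent.GZ.LocP.Node36

open ModularCurve IsLocalRing AlgebraicCurve HahnSeries
open Fermat.Agent.S24 Fermat.Agent.S24_helper62 Fermat.Agent.GJ.J1 Fermat.Agent.GJ.J1.Val
open Fermat.Agent.GJ.KumGroup Fermat.Agent.GJ.Kum.KumType Fermat.Agent.GJ.HN
open Fermat.Agent.GK.UqKronecker Fermat.Agent.GK.AL Fermat.Agent.GK.SS Fermat.Agent.GK.UTr
open Fermat.Agent.GB.A.FP Fermat.Agent.GB.A.Desc

/-! ### (P1) with a constant: extensions of degree `≤ 3` -/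

namespace PlaceExtC

open Fermat.Agent.GB.A.Desc.PlaceExt

variable {K F F' : Type*} [Field K] [Field F] [Field F'] [Algebra K F] [Algebra K F']
  [Algebra F F'] [IsScalarTower K F F'] [FiniteDimensional F F'] [Algebra.IsSeparable F F']

/-- **Descent of divisibility of orders up to the factor `6`**: `F'/F` finite separable of degree
`≤ 3`; if `m ∣ c · ord_w u` at every place `w` of `F'`, then `m ∣ 6 c · ord_v u` at every place
`v` of `F`. -/
theorem dvd_six_mul_ord_of_forall_dvd_above (m : ℕ) (c : ℤ) (h3 : Module.finrank F F' ≤ 3)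
    (u : F) (hu : ∀ w : Place K F', (m : ℤ) ∣ c * w.ord (algebraMap F F' u)) (v : Place K F) :
    (m : ℤ) ∣ 6 * c * v.ord u := by
  obtain ⟨w, hw⟩ := exists_place_restrict_eq (F' := F') v
  have h1 := hu w
  rw [w.ord_restrict, hw] at h1
  have hpos : 0 < w.ramificationIndex F := w.ramificationIndex_pos (F := F)
  have hle : w.ramificationIndex F ≤ 3 := (ramificationIndex_le_finrank w).trans h3
  have h6 : ((w.ramificationIndex F : ℕ) : ℤ) ∣ 6 := by
    generalize w.ramificationIndex F = e at hpos hle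
    interval_cases e <;> norm_num
  obtain ⟨d, hd⟩ := h6
  have e1 : 6 * c * v.ord u = d * (c * (((w.ramificationIndex F : ℕ) : ℤ) * v.ord u)) := by
    rw [hd]; ring
  rw [e1]
  exact Dvd.dvd.mul_left h1 d

end PlaceExtC

section Gen

open IntermediateField

variable {k E : Type*} [Field k] [Field E] [Algebra k E] {F F' : IntermediateField k E}
  (hle : F ≤ F')

/-- **(P1) with a constant, inclusion-algebra form** -/
theorem dvd_six_mul_ord_of_inclAlgebra
    (hfin : @FiniteDimensional F F' _ _ (inclAlgebra hle).toModule)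
    (hsep : @Algebra.IsSeparable F F' _ _ (inclAlgebra hle)) (m : ℕ) (c : ℤ)
    (h3 : @Module.finrank F F' _ _ (inclAlgebra hle).toModule ≤ 3)
    (x : F) (x' : F') (hxx' : (x' : E) = (x : E))
    (hx' : ∀ w : Place k F', (m : ℤ) ∣ c * w.ord x') (v : Place k F) :
    (m : ℤ) ∣ 6 * c * v.ord x := by
  let _ := inclAlgebra hle
  have := inclAlgebra_isScalarTower hle
  have e : x' = algebraMap F F' x := Subtype.ext hxx'
  subst e
  exact PlaceExtC.dvd_six_mul_ord_of_forall_dvd_above (K := k) m c h3 x hx' v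

end Gen

/-! ### `NodeHypC` and its descent -/

section Modular

variable {M q : ℕ} [NeZero M]

/-- **(A4) up to a constant `c`**: for an `I_A`-fixed `m`-divisible unit of `F_M` which is a unit
for both Gauss valuations, `m` divides `c · ord_Q` of both reductions at every place `Q` of the
residue function field. -/
def NodeHypC (h : ExactDvd q M) (A : ValuationSubring Kb) (m : ℕ) (c : ℤ) : Prop :=
  ∀ u : pDivUnits Kb (FK M) m,
    (∀ σ ∈ A.inertiaSubgroupIn ℚ, galUnits M σ (u : (FK M)ˣ) = (u : (FK M)ˣ)) →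
    ∀ hu : BothUnit h A (u : (FK M)ˣ),
      (∀ Q : Place (ResidueField A) (FresBar M A),
        (m : ℤ) ∣ c * Q.ord ((redUnit₁ hu : (FresBar M A)ˣ) : FresBar M A)) ∧
      (∀ Q : Place (ResidueField A) (FresBar M A),
        (m : ℤ) ∣ c * Q.ord ((redUnit₂ hu : (FresBar M A)ˣ) : FresBar M A))

/-- `FP.NodeHyp` is the case `c = 1` -/
theorem nodeHypC_of_nodeHyp {h : ExactDvd q M} {A : ValuationSubring Kb} {m : ℕ}
    (hN : NodeHyp h A m) : NodeHypC h A m 1 := by
  intro u hfix hu
  obtain ⟨h1, h2⟩ := hN u hfix hu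
  exact ⟨fun Q => by rw [one_mul]; exact h1 Q, fun Q => by rw [one_mul]; exact h2 Q⟩

/-- and conversely -/
theorem nodeHyp_of_nodeHypC_one {h : ExactDvd q M} {A : ValuationSubring Kb} {m : ℕ}
    (hN : NodeHypC h A m 1) : NodeHyp h A m := by
  intro u hfix hu
  obtain ⟨h1, h2⟩ := hN u hfix hu
  exact ⟨fun Q => by have := h1 Q; rwa [one_mul] at this,
    fun Q => by have := h2 Q; rwa [one_mul] at this⟩

/-- `NodeHypC` is monotone in the constant (for divisibility) -/
theorem NodeHypC.of_dvd {h : ExactDvd q M} {A : ValuationSubring Kb} {m : ℕ} {c c' : ℤ}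
    (hN : NodeHypC h A m c) (hcc : c ∣ c') : NodeHypC h A m c' := by
  obtain ⟨d, rfl⟩ := hcc
  intro u hfix hu
  obtain ⟨h1, h2⟩ := hN u hfix hu
  refine ⟨fun Q => ?_, fun Q => ?_⟩
  · have := (h1 Q).mul_left d
    rwa [← mul_assoc, mul_comm d c] at this
  · have := (h2 Q).mul_left d
    rwa [← mul_assoc, mul_comm d c] at this

variable (M) in
/-- **(P1) + (P3) with constants, hypothesis form** -/
def PlaceDescC (a : ℕ) [NeZero a] (A : ValuationSubring Kb) (m : ℕ) (c c' : ℤ) : Prop :=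
  ∀ (x : FresBar M A) (x' : FresBar (M * a) A),
    (x' : LaurentSeries (ResidueField A)) = (x : LaurentSeries (ResidueField A)) →
    (∀ Q' : Place (ResidueField A) (FresBar (M * a) A), (m : ℤ) ∣ c * Q'.ord x') →
      ∀ Q : Place (ResidueField A) (FresBar M A), (m : ℤ) ∣ c' * Q.ord x

/-- **descent of `NodeHypC`** from level `M a` to level `M`. -/
theorem nodeHypC_descent {a : ℕ} [NeZero a] {A : ValuationSubring Kb} (h : ExactDvd q M)
    (h' : ExactDvd q (M * a)) {m : ℕ} {c c' : ℤ} (hPD : PlaceDescC M a A m c c')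
    (hN : NodeHypC h' A m c) : NodeHypC h A m c' := by
  intro u hfix hu
  have hu' : BothUnit h' A (alphaUnits M a (u : (FK M)ˣ)) := bothUnit_alphaUnits h h' hu
  have hfix' : ∀ σ ∈ A.inertiaSubgroupIn ℚ,
      galUnits (M * a) σ (alphaUnits M a (u : (FK M)ˣ)) = alphaUnits M a (u : (FK M)ˣ) := by
    intro σ hσ
    rw [← alphaUnits_galUnits, hfix σ hσ]
  obtain ⟨h1, h2⟩ := hN ⟨alphaUnits M a (u : (FK M)ˣ), alphaUnits_mem M a m u u.2⟩ hfix' hu'
  refine ⟨fun Q => ?_, fun Q => ?_⟩
  · exact hPD _ _ (coe_redUnit₁_alphaUnits h h' hu hu') (fun Q' => h1 Q') Q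
  · exact hPD _ _ (coe_redUnit₂_alphaUnits h h' hu hu') (fun Q' => h2 Q') Q

/-- **(P1) + (P3)**: along `FresBar M A ⊆ FresBar (M·2) A` (finite separable of degree `≤ 3`)
place-divisibility by ANY `m` descends up to the factor `6`. -/
theorem placeDescC_two (h : ExactDvd q M) (hq2 : q ≠ 2) {A : ValuationSubring Kb}
    (hA : A.LiesOverPrime q) (m : ℕ) (c : ℤ) : PlaceDescC M 2 A m c (6 * c) := by
  intro x x' hxx' hx' Q
  have hle : FresBar M A ≤ FresBar (M * 2) A := FresBar_le_level M 2 A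
  exact dvd_six_mul_ord_of_inclAlgebra hle
    (ResDeg.finiteDimensional_FresBar_mul_two A h hA hq2 hle)
    (ResDeg.isSeparable_FresBar_mul_two A h hA hle) m c
    (ResDeg.finrank_FresBar_mul_two_le A h hA hq2 hle) x x' hxx' hx' Q

/-- **the `36`-form of (A4) at every level, for every `m`**: `q ∥ M`, `q` odd, `A ∣ q`. For an
`I_A`-fixed `m`-divisible unit `u` of `F_M` which is a unit for both Gauss valuations,
`m ∣ 36 · ord_Q (red_i u)` at every place `Q` of the residue function field (`i = 1, 2`). -/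
theorem nodeHyp36 (h : ExactDvd q M) (hq2 : q ≠ 2) {A : ValuationSubring Kb}
    (hA : A.LiesOverPrime q) (m : ℕ) : NodeHypC h A m 36 := by
  have h4 : NodeHypC (exactDvd_mul_two (exactDvd_mul_two h hq2) hq2) A m 1 :=
    nodeHypC_of_nodeHyp (nodeHyp_mul_four h hq2 hA m)
  have h2 : NodeHypC (exactDvd_mul_two h hq2) A m (6 * 1) :=
    nodeHypC_descent (exactDvd_mul_two h hq2) (exactDvd_mul_two (exactDvd_mul_two h hq2) hq2)
      (placeDescC_two (exactDvd_mul_two h hq2) hq2 hA m 1) h4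
  have h1 : NodeHypC h A m (6 * (6 * 1)) :=
    nodeHypC_descent h (exactDvd_mul_two h hq2) (placeDescC_two h hq2 hA m (6 * 1)) h2
  have e : (6 * (6 * 1) : ℤ) = 36 := by norm_num
  rwa [e] at h1

/-- unfolded form of `nodeHyp36`, first reduction -/
theorem dvd_thirtysix_mul_ord_redUnit₁ (h : ExactDvd q M) (hq2 : q ≠ 2) {A : ValuationSubring Kb}
    (hA : A.LiesOverPrime q) (m : ℕ) (u : pDivUnits Kb (FK M) m)
    (hfix : ∀ σ ∈ A.inertiaSubgroupIn ℚ, galUnits M σ (u : (FK M)ˣ) = (u : (FK M)ˣ))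
    (hu : BothUnit h A (u : (FK M)ˣ)) (Q : Place (ResidueField A) (FresBar M A)) :
    (m : ℤ) ∣ 36 * Q.ord ((redUnit₁ hu : (FresBar M A)ˣ) : FresBar M A) :=
  (nodeHyp36 h hq2 hA m u hfix hu).1 Q

/-- unfolded form of `nodeHyp36`, second reduction -/
theorem dvd_thirtysix_mul_ord_redUnit₂ (h : ExactDvd q M) (hq2 : q ≠ 2) {A : ValuationSubring Kb}
    (hA : A.LiesOverPrime q) (m : ℕ) (u : pDivUnits Kb (FK M) m)
    (hfix : ∀ σ ∈ A.inertiaSubgroupIn ℚ, galUnits M σ (u : (FK M)ˣ) = (u : (FK M)ˣ))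
    (hu : BothUnit h A (u : (FK M)ˣ)) (Q : Place (ResidueField A) (FresBar M A)) :
    (m : ℤ) ∣ 36 * Q.ord ((redUnit₂ hu : (FresBar M A)ˣ) : FresBar M A) :=
  (nodeHyp36 h hq2 hA m u hfix hu).2 Q

end Modular

end Fermat.Agent.GZ.LocP.Node36
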